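import Fermat.Agent.RIB.Star

/-!
# RIB / HARD (second source) : the abstract form of `[KEY + MP ⟹ ε, Sg]`   (Mathlib + `RIB/Star.lean` only)

`R` local, `V` an `M₂(R)`-module via `Φ`, `ρ : G → M₂(R)`, `π0 : R → F` the residue map, `I ⊆ G` with `ρ(I) ≡ 1` mod `m`,
`w` an additive involution of `V` commuting with `G`, KEY : `σ x + q w x = 0` for the `I`-fixed `x`.
If `ρ mod m` has no stable line and `det ρ(σ) ≡ q ≠ 0`, then `ρ(σ) ≡ c` scalar, `c² = 1`, `q ≡ 1`, and `σ² = q²` on the `I`-fixed vectors.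

No Burnside, no Schur: `w` need not preserve `V[m]` nor commute with `R`.
-/

set_option autoImplicit false

namespace Fermat.Agent.RIB.Hard2

open Matrix IsLocalRing

section LinAlg

variable {F : Type*} [Field F]

/-- two non proportional vectors have a nonzero determinant -/
theorem det_ne_zero_of_not_smul {u u' : Fin 2 → F} (hu : u ≠ 0) (h : ∀ c : F, u' ≠ c • u) :
    u 0 * u' 1 - u 1 * u' 0 ≠ 0 := by
  intro h0
  by_cases h00 : u 0 = 0
  · have h1 : u 1 ≠ 0 := by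
      intro h1
      apply hu
      ext i
      fin_cases i
      · exact h00
      · exact h1
    have h2 : u' 0 = 0 := by
      rw [h00, zero_mul, zero_sub, neg_eq_zero] at h0
      exact (mul_eq_zero.1 h0).resolve_left h1
    apply h (u' 1 / u 1)
    ext i
    fin_cases i
    · show u' 0 = (u' 1 / u 1) * u 0
      rw [h00, h2, mul_zero]
    · show u' 1 = (u' 1 / u 1) * u 1
      rw [div_mul_cancel₀ _ h1]
  · apply h (u' 0 / u 0)
    ext i
    fin_cases i
    · show u' 0 = (u' 0 / u 0) * u 0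
      rw [div_mul_cancel₀ _ h00]
    · show u' 1 = (u' 0 / u 0) * u 1
      field_simp
      linear_combination h0

/-- a matrix killing two non proportional vectors is zero -/
theorem eq_zero_of_mulVec_eq_zero (Z : Matrix (Fin 2) (Fin 2) F) {u u' : Fin 2 → F}
    (hd : u 0 * u' 1 - u 1 * u' 0 ≠ 0) (h : Z.mulVec u = 0) (h' : Z.mulVec u' = 0) : Z = 0 := by
  have e : ∀ i, Z i 0 * u 0 + Z i 1 * u 1 = 0 := fun i => by
    have := congrFun h i
    simpa [Matrix.mulVec, dotProduct, Fin.sum_univ_two] using this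
  have e' : ∀ i, Z i 0 * u' 0 + Z i 1 * u' 1 = 0 := fun i => by
    have := congrFun h' i
    simpa [Matrix.mulVec, dotProduct, Fin.sum_univ_two] using this
  have z0 : ∀ i, Z i 0 = 0 := fun i => by
    have : Z i 0 * (u 0 * u' 1 - u 1 * u' 0) = 0 := by
      linear_combination u' 1 * e i - u 1 * e' i
    exact (mul_eq_zero.1 this).resolve_right hd
  have z1 : ∀ i, Z i 1 = 0 := fun i => by
    have : Z i 1 * (u 0 * u' 1 - u 1 * u' 0) = 0 := by
      linear_combination u 0 * e' i - u' 0 * e i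
    exact (mul_eq_zero.1 this).resolve_right hd
  ext i j
  fin_cases j
  · exact z0 i
  · exact z1 i

/-- `X² = c²`, `X` commutes with a family without stable line : `X = ± c`. -/
theorem eq_smul_one_of_comm (X : Matrix (Fin 2) (Fin 2) F) (c : F)
    (hX : X * X = (c * c) • (1 : Matrix (Fin 2) (Fin 2) F)) (𝒢 : Set (Matrix (Fin 2) (Fin 2) F))
    (hcomm : ∀ Y ∈ 𝒢, X * Y = Y * X)
    (hline : ∀ v : Fin 2 → F, v ≠ 0 → ∃ Y ∈ 𝒢, ∀ a : F, Y.mulVec v ≠ a • v) :
    X = c • (1 : Matrix (Fin 2) (Fin 2) F) ∨ X = (-c) • (1 : Matrix (Fin 2) (Fin 2) F) := by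
  by_cases h : X = c • (1 : Matrix (Fin 2) (Fin 2) F)
  · exact Or.inl h
  right
  obtain ⟨v, hv⟩ : ∃ v : Fin 2 → F, (X - c • (1 : Matrix (Fin 2) (Fin 2) F)).mulVec v ≠ 0 := by
    by_contra hcon
    push Not at hcon
    apply h
    rw [← sub_eq_zero]
    ext i j
    have := congrFun (hcon (Pi.single j 1)) i
    simpa using this
  set u := (X - c • (1 : Matrix (Fin 2) (Fin 2) F)).mulVec v with hu
  set Z := X + c • (1 : Matrix (Fin 2) (Fin 2) F) with hZ
  have hZX : Z * (X - c • (1 : Matrix (Fin 2) (Fin 2) F)) = 0 := by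
    rw [hZ, add_mul, mul_sub, mul_sub, hX, smul_mul_assoc, one_mul, mul_smul_comm, mul_one,
      smul_mul_assoc, one_mul, smul_smul]
    abel
  have hZu : Z.mulVec u = 0 := by
    rw [hu, Matrix.mulVec_mulVec, hZX, Matrix.zero_mulVec]
  obtain ⟨Y, hY, hYu⟩ := hline u hv
  have hZY : Z * Y = Y * Z := by
    rw [hZ, add_mul, mul_add, hcomm Y hY, smul_mul_assoc, one_mul, mul_smul_comm, mul_one]
  have hZu' : Z.mulVec (Y.mulVec u) = 0 := by
    rw [Matrix.mulVec_mulVec, hZY, ← Matrix.mulVec_mulVec, hZu, Matrix.mulVec_zero]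
  have hZ0 : Z = 0 := eq_zero_of_mulVec_eq_zero Z (det_ne_zero_of_not_smul hv hYu) hZu hZu'
  rw [neg_smul]
  exact eq_neg_of_add_eq_zero_left hZ0

end LinAlg

section Soc

variable {R V : Type*} [CommRing R] [IsLocalRing R] [AddCommGroup V] [Module R V]

/-- a nonzero module over a local ring with nilpotent maximal ideal has a nonzero socle -/
theorem exists_ne_zero_socle {N : ℕ} (hN : maximalIdeal R ^ N = ⊥) {x₀ : V} (hx₀ : x₀ ≠ 0) :
    ∃ x : V, x ≠ 0 ∧ ∀ t ∈ maximalIdeal R, t • x = 0 := by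
  classical
  have hex : ∃ k : ℕ, ∀ t ∈ maximalIdeal R ^ k, t • x₀ = 0 := ⟨N, fun t ht => by
    rw [hN, Ideal.mem_bot] at ht
    rw [ht, zero_smul]⟩
  set k := Nat.find hex with hk
  have hkP : ∀ t ∈ maximalIdeal R ^ k, t • x₀ = 0 := Nat.find_spec hex
  have hk0 : k ≠ 0 := by
    intro h0
    rw [h0, pow_zero] at hkP
    exact hx₀ (by simpa using hkP 1 (by simp))
  obtain ⟨j, hj⟩ := Nat.exists_eq_succ_of_ne_zero hk0
  have hjP : ¬ ∀ t ∈ maximalIdeal R ^ j, t • x₀ = 0 := Nat.find_min hex (by omega)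
  push Not at hjP
  obtain ⟨t, ht, htx⟩ := hjP
  refine ⟨t • x₀, htx, fun s hs => ?_⟩
  rw [smul_smul]
  apply hkP
  rw [hj, Nat.succ_eq_add_one, pow_succ']
  exact Ideal.mul_mem_mul hs ht

end Soc

section Main

variable {G R V F : Type*} [Group G] [CommRing R] [IsLocalRing R] [AddCommGroup V] [Module R V]
  [Field F]

/-- **[KEY + MP]**, abstract form. -/
theorem mp_abs (π0 : R →+* F) (hm : ∀ x ∈ maximalIdeal R, π0 x = 0)
    (Φ : Matrix (Fin 2) (Fin 2) R →ₐ[R] Module.End R V) (ρ : G →* Matrix (Fin 2) (Fin 2) R)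
    (hsoc : ∃ x : V, x ≠ 0 ∧ ∀ t ∈ maximalIdeal R, t • x = 0)
    (I : Set G) (hI : ∀ τ ∈ I, ∀ a b, (ρ τ - 1) a b ∈ maximalIdeal R)
    (σ : G) (q : ℕ) (hq : (q : F) ≠ 0) (hdet : ((ρ σ).map π0).det = (q : F))
    (w : V →+ V) (hww : ∀ x, w (w x) = x) (hwg : ∀ (g : G) x, w (Φ (ρ g) x) = Φ (ρ g) (w x))
    (hkey : ∀ x : V, (∀ τ ∈ I, Φ (ρ τ) x = x) → Φ (ρ σ) x + q • w x = 0)
    (hline : ∀ v : Fin 2 → F, v ≠ 0 → ∃ g : G, ∀ a : F, ((ρ g).map π0).mulVec v ≠ a • v) :
    (∃ c : F, c * c = 1 ∧ (ρ σ).map π0 = c • (1 : Matrix (Fin 2) (Fin 2) F)) ∧ (q : F) = 1 ∧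
      ∀ x : V, (∀ τ ∈ I, Φ (ρ τ) x = x) → Φ (ρ σ * ρ σ) x = (q * q) • x := by
  have hσ : ∀ x : V, (∀ τ ∈ I, Φ (ρ τ) x = x) → Φ (ρ σ) x = -(q • w x) := fun x hx =>
    eq_neg_of_add_eq_zero_left (hkey x hx)
  have hsq : ∀ x : V, (∀ τ ∈ I, Φ (ρ τ) x = x) → Φ (ρ σ * ρ σ) x = (q * q) • x := by
    intro x hx
    have hwx : ∀ τ ∈ I, Φ (ρ τ) (w x) = w x := fun τ hτ => by rw [← hwg, hx τ hτ]
    rw [map_mul, Module.End.mul_apply, hσ x hx, map_neg, map_nsmul, hσ (w x) hwx, hww, smul_neg,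
      neg_neg, mul_nsmul]
  obtain ⟨x₀, hx₀, hx₀m⟩ := hsoc
  set U : Submodule R V := tors V (maximalIdeal R) with hU
  have hx₀U : x₀ ∈ U := mem_tors.2 hx₀m
  have hUs : ∀ (A : Matrix (Fin 2) (Fin 2) R), ∀ y ∈ U, Φ A y ∈ U :=
    fun A y hy => map_mem_tors Φ _ A hy
  have hUfix : ∀ x ∈ U, ∀ τ ∈ I, Φ (ρ τ) x = x := by
    intro x hx τ hτ
    have h1 : Φ (ρ τ - 1) x = 0 :=
      map_apply_eq_zero_of_entries Φ (ρ τ - 1) fun i j => (mem_tors.1 hx) _ (hI τ hτ i j)
    rw [map_sub, map_one, LinearMap.sub_apply, Module.End.one_apply, sub_eq_zero] at h1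
    exact h1
  have hent : ∀ Gm : Matrix (Fin 2) (Fin 2) R, (∀ x ∈ U, Φ Gm x = 0) → Gm.map π0 = 0 := by
    intro Gm hG
    ext i j
    show π0 (Gm i j) = 0
    apply hm
    by_contra hu
    rw [IsLocalRing.notMem_maximalIdeal] at hu
    exact hx₀ ((hu.smul_eq_zero).1 (entry_smul_eq_zero Φ U hUs Gm hG i j hx₀U))
  set X : Matrix (Fin 2) (Fin 2) F := (ρ σ).map π0 with hX
  have hXX : X * X = ((q : F) * (q : F)) • (1 : Matrix (Fin 2) (Fin 2) F) := by
    have h1 := hent (ρ σ * ρ σ - ((q * q : ℕ) : R) • (1 : Matrix (Fin 2) (Fin 2) R)) (fun x hx => by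
      rw [map_sub, map_smul, map_one, LinearMap.sub_apply, hsq x (hUfix x hx),
        LinearMap.smul_apply, Module.End.one_apply, Nat.cast_smul_eq_nsmul, sub_self])
    have h2 : (ρ σ * ρ σ - ((q * q : ℕ) : R) • (1 : Matrix (Fin 2) (Fin 2) R)).map π0
        = X * X - ((q : F) * (q : F)) • (1 : Matrix (Fin 2) (Fin 2) F) := by
      rw [Matrix.map_sub (f := π0) (map_sub π0), Matrix.map_mul]
      congr 1
      ext i j
      by_cases hij : i = j
      · subst hij
        simp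
      · simp [Matrix.one_apply_ne hij]
    rw [h2] at h1
    exact sub_eq_zero.1 h1
  have hcomm : ∀ g : G, X * (ρ g).map π0 = (ρ g).map π0 * X := by
    intro g
    have h1 := hent (ρ σ * ρ g - ρ g * ρ σ) (fun x hx => by
      rw [map_sub, map_mul, map_mul, LinearMap.sub_apply, Module.End.mul_apply,
        Module.End.mul_apply, hσ _ (hUfix _ (hUs (ρ g) x hx)), hσ x (hUfix x hx), hwg, map_neg,
        map_nsmul, sub_self])
    rw [Matrix.map_sub (f := π0) (map_sub π0), Matrix.map_mul, Matrix.map_mul] at h1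
    exact sub_eq_zero.1 h1
  have hcase := eq_smul_one_of_comm X (q : F) hXX (Set.range fun g : G => (ρ g).map π0)
    (by rintro _ ⟨g, rfl⟩; exact hcomm g)
    (fun v hv => by
      obtain ⟨g, hg⟩ := hline v hv
      exact ⟨_, ⟨g, rfl⟩, hg⟩)
  have hq1 : (q : F) = 1 := by
    have h3 : (q : F) * (q : F) = (q : F) := by
      rcases hcase with h | h
      · rw [h, Matrix.det_smul, Matrix.det_one, Fintype.card_fin] at hdet
        linear_combination hdet
      · rw [h, Matrix.det_smul, Matrix.det_one, Fintype.card_fin] at hdet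
        linear_combination hdet
    exact mul_left_cancel₀ hq (by rw [h3, mul_one])
  refine ⟨?_, hq1, hsq⟩
  rcases hcase with h | h
  · exact ⟨(q : F), by rw [hq1, mul_one], h⟩
  · exact ⟨-(q : F), by rw [hq1]; ring, h⟩

end Main

end Fermat.Agent.RIB.Hard2
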