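import Fermat.Agent.RIB.Hard2.MPAbs
import Fermat.Agent.RIB.Main.Ctx
import Fermat.Agent.RIB.TWLoc.Rho

/-!
# RIB / HARD (second source) : `[KEY + MP ⟹ ε, Sg]` for `IsRho`   (board #2320)

`hard_mp` : from the conclusion of `key_theta` / `key_final` (an involution `w` of `J₀(L)` commuting with `G_ℚ`, preserving the `θ`-part,
with `σ x + q w x = 0` on the `I_A`-fixed `x`) : `rbar0 σ = c` scalar, `c² = 1`, `q ≡ 1` mod `p`, `ρ σ ≡ c` mod `m`, and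
`Φ (ρ σ * ρ σ) x = x` for the `I_A`-fixed `x ∈ W(L)`.
-/

set_option autoImplicit false
set_option linter.unusedSectionVars false

noncomputable section

open AlgebraicCurve ModularCurve IsLocalRing

namespace Fermat.Agent.RIB

local notation "Qbar" => AlgebraicClosure ℚ
local notation "GQ" => (AlgebraicClosure ℚ ≃ₐ[ℚ] AlgebraicClosure ℚ)
local notation "M₂" => Matrix (Fin 2) (Fin 2)

variable {L p : ℕ} [NeZero L] [Fact p.Prime] {S : Set ℕ} {θ : ℕ → ℤ}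
  {rbar0 : GQ →* M₂ (ZMod p)}
  {R : Type} [CommRing R] [IsLocalRing R] [Algebra (ZMod p) R] [Module R ↥(WS L p S θ)]
  {π0 : R →ₐ[ZMod p] ZMod p} {ρ : GQ →* M₂ R}
  {Φ : M₂ R →ₐ[R] Module.End R ↥(WS L p S θ)}

/-- `[KEY + MP]` with `noLine` as a hypothesis. -/
theorem hard_mp_of_noLine
    (hline : ∀ v : Fin 2 → ZMod p, v ≠ 0 → ∃ g : GQ, ∀ c : ZMod p, (rbar0 g).mulVec v ≠ c • v)
    (H : IsRho L p S θ rbar0 π0 ρ Φ) {q : ℕ} (hq : q.Prime) (hqp : q ≠ p)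
    (A : ValuationSubring Qbar) (σ : GQ) (hdetσ : (rbar0 σ).det = ((q : ℕ) : ZMod p))
    (hunr : ∀ τ ∈ A.inertiaSubgroupIn ℚ, rbar0 τ = 1)
    (w : JZero L →+ JZero L) (hww : ∀ x, w (w x) = x)
    (hwg : ∀ (g : GQ) x, w (g • x) = g • w x)
    (hwθ : ∀ x ∈ thetaPart L p S θ, w x ∈ thetaPart L p S θ)
    (hkey : ∀ x ∈ thetaPart L p S θ, (∀ τ ∈ A.inertiaSubgroupIn ℚ, τ • x = x) →
      σ • x + q • w x = 0) :
    ∃ c : ZMod p, c * c = 1 ∧ rbar0 σ = c • (1 : M₂ (ZMod p)) ∧ ((q : ℕ) : ZMod p) = 1 ∧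
      (∀ a b, (ρ σ - algebraMap (ZMod p) R c • (1 : M₂ R)) a b ∈ maximalIdeal R) ∧
      ∀ x : ↥(WS L p S θ), (∀ τ ∈ A.inertiaSubgroupIn ℚ, τ • x = x) →
        Φ (ρ σ * ρ σ) x = x := by
  classical
  let wV : ↥(WS L p S θ) →+ ↥(WS L p S θ) :=
    { toFun := fun x => ⟨w x.1, map_mem_WS w hwθ x.2⟩
      map_zero' := Subtype.ext (map_zero w)
      map_add' := fun x y => Subtype.ext (map_add w x.1 y.1) }
  have hwV : ∀ x : ↥(WS L p S θ), ((wV x : ↥(WS L p S θ)) : JZero L) = w x.1 := fun _ => rfl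
  obtain ⟨x₀, hx₀⟩ : ∃ x₀ : ↥(WS L p S θ), x₀ ≠ 0 := by
    by_contra hcon
    have hcon' : ∀ x : ↥(WS L p S θ), x = 0 := fun x => by
      by_contra hx
      exact hcon ⟨x, hx⟩
    have h10 : (1 : R) = 0 := H.faithful 1 (fun x => by rw [hcon' x, smul_zero])
    exact one_ne_zero h10
  obtain ⟨N, hN⟩ := H.exists_pow_eq_bot
  have hsoc := Hard2.exists_ne_zero_socle hN hx₀
  have hlift : ∀ g, (ρ g).map (π0 : R →+* ZMod p) = rbar0 g := fun g => H.lift g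
  have hqF : ((q : ℕ) : ZMod p) ≠ 0 := by
    intro h
    rw [ZMod.natCast_eq_zero_iff] at h
    exact hqp ((Nat.prime_dvd_prime_iff_eq Fact.out hq).1 h).symm
  obtain ⟨⟨c, hcc, hc⟩, hq1, hsq⟩ := Hard2.mp_abs (π0 : R →+* ZMod p)
    (fun x hx => (IsRho.mem_maximalIdeal_iff (π0 := π0)).1 hx) Φ ρ hsoc
    (A.inertiaSubgroupIn ℚ : Set GQ) (fun τ hτ a b => H.ent (hunr τ hτ) a b) σ q hqF
    (by rw [hlift]; exact hdetσ) wV (fun x => Subtype.ext (hww x.1))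
    (fun g x => by
      rw [H.act, H.act]
      exact Subtype.ext (hwg g x.1))
    (fun x hx => by
      rw [H.act]
      apply Subtype.ext
      have h1 := hkey x.1 x.2.1 (fun τ hτ => by
        have h2 := hx τ hτ
        rw [H.act] at h2
        exact congrArg Subtype.val h2)
      rw [AddSubgroup.coe_add, AddSubgroup.coe_nsmul, hwV, coe_smul_WS]
      exact h1)
    (fun v hv => by
      obtain ⟨g, hg⟩ := hline v hv
      exact ⟨g, by rw [hlift]; exact hg⟩)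
  rw [hlift] at hc
  refine ⟨c, hcc, hc, hq1, fun a b => ?_, fun x hx => ?_⟩
  · rw [IsRho.mem_maximalIdeal_iff (π0 := π0), Matrix.sub_apply, map_sub, Matrix.smul_apply,
      smul_eq_mul, map_mul, AlgHom.commutes]
    have h1 : π0 (ρ σ a b) = (c • (1 : M₂ (ZMod p))) a b := by
      rw [← hc, ← H.lift σ]
      rfl
    rw [h1, Matrix.smul_apply, smul_eq_mul]
    by_cases hab : a = b
    · subst hab
      simp
    · simp [Matrix.one_apply_ne hab]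
  · rw [hsq x (fun τ hτ => by rw [H.act]; exact hx τ hτ)]
    have h1 : ((q * q : ℕ) : ZMod p) = 1 := by rw [Nat.cast_mul, hq1, mul_one]
    rw [← Nat.cast_smul_eq_nsmul (ZMod p), h1, one_smul]

/-- **`[KEY + MP ⟹ ε, Sg]`**  (board #2320). -/
theorem hard_mp {T : Finset ℕ} (EC : ECtx p T θ rbar0)
    (H : IsRho L p S θ rbar0 π0 ρ Φ) {q : ℕ} (hq : q.Prime) (hqp : q ≠ p)
    (A : ValuationSubring Qbar) (σ : GQ) (hdetσ : (rbar0 σ).det = ((q : ℕ) : ZMod p))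
    (hunr : ∀ τ ∈ A.inertiaSubgroupIn ℚ, rbar0 τ = 1)
    (w : JZero L →+ JZero L) (hww : ∀ x, w (w x) = x)
    (hwg : ∀ (g : GQ) x, w (g • x) = g • w x)
    (hwθ : ∀ x ∈ thetaPart L p S θ, w x ∈ thetaPart L p S θ)
    (hkey : ∀ x ∈ thetaPart L p S θ, (∀ τ ∈ A.inertiaSubgroupIn ℚ, τ • x = x) →
      σ • x + q • w x = 0) :
    ∃ c : ZMod p, c * c = 1 ∧ rbar0 σ = c • (1 : M₂ (ZMod p)) ∧ ((q : ℕ) : ZMod p) = 1 ∧
      (∀ a b, (ρ σ - algebraMap (ZMod p) R c • (1 : M₂ R)) a b ∈ maximalIdeal R) ∧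
      ∀ x : ↥(WS L p S θ), (∀ τ ∈ A.inertiaSubgroupIn ℚ, τ • x = x) →
        Φ (ρ σ * ρ σ) x = x :=
  hard_mp_of_noLine EC.noLine H hq hqp A σ hdetσ hunr w hww hwg hwθ hkey

end Fermat.Agent.RIB
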